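import Fermat.Agent.GoodRed.SmallPrime.Hauptmodul
import Fermat.Agent.GoodRed.X0Field

/-!
# The coordinates of levels two and three lie in the modular function field

`p ^ 12 Δ (p z) / Δ (z)` is `U (j (p z)) / Φ' (j (p z))` for the integral modular equations.
-/

set_option autoImplicit false
set_option linter.style.haveILetI false
set_option linter.unusedSectionVars false

noncomputable section

open HahnSeries ModularCurve Polynomial Finset IsLocalRing
open scoped IntermediateField

namespace FLTAgent.GoodRed.SmallPrime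

open FLTAgent.Igusa

local notation "Qbar" => AlgebraicClosure ℚ

/-- `Y ↦ j`, `X ↦ j (p z)`. -/
def ev2 (p : ℕ) [NeZero p] : Polynomial (Polynomial ℤ) →+* LaurentSeries ℤ :=
  eval₂RingHom (eval₂RingHom (Int.castRingHom _) (jqModC ℤ)) (qExpand ℤ p (jqModC ℤ))

theorem eval_rootJ_none (p : ℕ) [NeZero p] (ζ : ℂˣ) (P : Polynomial (Polynomial ℤ)) :
    (P.map (evZ p ℂ)).eval (rootJ ℂ p ζ none) =
      qExpand ℂ p (coeffMap (Int.castRingHom ℂ) (ev2 p P)) := by
  have h : ((Polynomial.evalRingHom (rootJ ℂ p ζ none)).comp (mapRingHom (evZ p ℂ))) =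
      ((qExpand ℂ p).comp (coeffMap (Int.castRingHom ℂ))).comp (ev2 p) := by
    refine Polynomial.ringHom_ext' (Polynomial.ringHom_ext' (RingHom.ext_int _ _) ?_) ?_
    · simp [ev2, evZ, coeffMap_jqModC]
    · simp [ev2, rootJ, J_one_unit, coeffMap_qExpand, coeffMap_jqModC, qExpand_qExpand]
  exact RingHom.congr_fun h P

theorem ev2_mem_intModRing {M p : ℕ} [NeZero p] [NeZero M] (hpM : p ∣ M)
    (P : Polynomial (Polynomial ℤ)) : ev2 p P ∈ intModRing M := by
  have hj : jqModC ℤ ∈ intModRing M :=
    Subring.subset_closure ⟨1, inferInstance, one_dvd _, by rw [qExpand_one_apply]⟩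
  have hjp : qExpand ℤ p (jqModC ℤ) ∈ intModRing M :=
    Subring.subset_closure ⟨p, inferInstance, hpM, rfl⟩
  induction P using Polynomial.induction_on' with
  | add a b ha hb => rw [map_add]; exact add_mem ha hb
  | monomial n a =>
    rw [ev2, coe_eval₂RingHom, eval₂_monomial]
    refine mul_mem ?_ (pow_mem hjp n)
    induction a using Polynomial.induction_on' with
    | add a b ha hb => rw [map_add]; exact add_mem ha hb
    | monomial k c =>
      rw [coe_eval₂RingHom, eval₂_monomial]
      exact mul_mem (intCast_mem _ c) (pow_mem hj k)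

/-- `p ^ 12 Δ (p z) / Δ (z)` as a quotient of integral modular series. -/
theorem exists_quotW_mul (p : ℕ) [NeZero p] (hp : p.Prime) :
    ∃ D U : Polynomial (Polynomial ℤ), ev2 p D ≠ 0 ∧ quotW p * ev2 p D = ev2 p U := by
  classical
  obtain ⟨Φ, G, U, -, -, -, hEq⟩ := exists_modularEquations p hp
  obtain ⟨hΦ, -, hU⟩ := hEq ℂ (algebraMap AlgInt ℂ)
  set ζ := zetaIn p (algebraMap AlgInt ℂ : AlgInt →+* ℂ)
  set jc := rootJ ℂ p ζ
  have hU' : qExpand ℂ p (coeffMap (Int.castRingHom ℂ) (ev2 p U)) =
      rootW ℂ p ζ none * ∏ k ∈ univ.erase none, (jc none - jc k) := by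
    rw [← eval_rootJ_none p ζ, hU, eval_finsetSum, Finset.sum_eq_single none]
    · simp [eval_prod, jc]
    · intro o _ ho
      rw [eval_mul, eval_prod, Finset.prod_eq_zero (Finset.mem_erase.2
        ⟨fun h => ho h.symm, Finset.mem_univ none⟩) (by simp [jc]), mul_zero]
    · simp
  have hD' : qExpand ℂ p (coeffMap (Int.castRingHom ℂ) (ev2 p (derivative Φ))) =
      ∏ k ∈ univ.erase none, (jc none - jc k) := by
    rw [← eval_rootJ_none p ζ, ← derivative_map, hΦ, derivative_prod_finset, eval_finsetSum,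
      Finset.sum_eq_single none]
    · simp [eval_prod, jc]
    · intro o _ ho
      rw [eval_mul, eval_prod, Finset.prod_eq_zero (Finset.mem_erase.2
        ⟨fun h => ho h.symm, Finset.mem_univ none⟩) (by simp [jc]), zero_mul]
    · simp
  have hne : ∀ k ∈ univ.erase (none : Option (Fin p)), jc none - jc k ≠ 0 := by
    rintro (_ | i) hk h
    · exact (Finset.mem_erase.1 hk).1 rfl
    have h1 := congrArg (fun z : LaurentSeries ℂ => z.coeff (-((p * p : ℕ) : ℤ))) h
    have hlead : (jqModC ℂ).coeff (-1) = 1 := by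
      simpa using coeff_jqModC_pow_self ℂ 1
    have hlow : ∀ k : ℤ, k < -1 → (jqModC ℂ).coeff k = 0 := fun k hk => by
      simpa using coeff_jqModC_pow_of_lt ℂ (b := 1) (m := k) (by omega)
    have hL : (jc none).coeff (-((p * p : ℕ) : ℤ)) = 1 := by
      rw [show jc none = J ℂ (p * p) 1 from rfl, J_one_unit, ← mul_neg_one, qExpand_coeff_mul,
        hlead]
    have hR : (jc (some i)).coeff (-((p * p : ℕ) : ℤ)) = 0 := by
      rw [show jc (some i) = J ℂ 1 (ζ ^ (i : ℕ)) from rfl, J_def, qExpand_one_apply,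
        FLTAgent.ModPoly.twist_coeff, hlow _ (by
          have : 2 * 2 ≤ p * p := Nat.mul_le_mul hp.two_le hp.two_le
          push_cast
          nlinarith), mul_zero]
    simp only [HahnSeries.coeff_sub, HahnSeries.coeff_zero, hL, hR] at h1
    simp at h1
  refine ⟨derivative Φ, U, fun h => Finset.prod_ne_zero_iff.2 hne ?_, ?_⟩
  · rw [← hD', h, map_zero, map_zero]
  · apply eq_of_qExpand_complex (p := p)
    rw [map_mul, map_mul, ← rootW_none p ζ, hD', hU']

theorem intToRat_quotW_mem {M p : ℕ} [NeZero p] [NeZero M] (hp : p.Prime) (hpM : p ∣ M) :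
    intToRat (quotW p) ∈ modularFunctionFieldFull M := by
  obtain ⟨D, U, hD, hDU⟩ := exists_quotW_mul p hp
  have hinj : Function.Injective (intToRat : LaurentSeries ℤ → LaurentSeries ℚ) := fun x y h =>
    HahnSeries.ext (funext fun k => (Int.castRingHom ℚ).injective_int
      (congrArg (fun z : LaurentSeries ℚ => z.coeff k) h))
  have hne : intToRat (ev2 p D) ≠ 0 := fun h => hD ((map_eq_zero_iff _ hinj).1 h)
  rw [eq_div_of_mul_eq hne ((map_mul intToRat _ _).symm.trans (congrArg intToRat hDU))]
  exact div_mem (intToRat_mem_full M ⟨_, ev2_mem_intModRing hpM U⟩)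
    (intToRat_mem_full M ⟨_, ev2_mem_intModRing hpM D⟩)

theorem intToRat_hauptTwo_mem {M : ℕ} [NeZero M] (hM : 2 ∣ M) :
    intToRat hauptTwo ∈ modularFunctionFieldFull M := by
  have h := congrArg intToRat hauptTwo_mul_quotW
  rw [map_mul, map_ofNat] at h
  have h4 : (4096 : LaurentSeries ℚ) ≠ 0 := by
    exact_mod_cast natCast_ne_zero_laurent (R := ℚ) (n := 4096) (by norm_num)
  have hne : intToRat (quotW 2) ≠ 0 := fun h0 => h4 (by rw [← h, h0, mul_zero])
  rw [eq_div_of_mul_eq hne h]
  exact div_mem (ofNat_mem _ 4096) (intToRat_quotW_mem Nat.prime_two hM)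

theorem intToRat_hauptThree_mem {M : ℕ} [NeZero M] (hM : 3 ∣ M) :
    intToRat hauptThree ∈ modularFunctionFieldFull M := by
  have hw := intToRat_quotW_mem Nat.prime_three hM
  have hj := intToRat_mem_full M ⟨_, Subring.subset_closure
    ⟨1, inferInstance, one_dvd _, (qExpand_one_apply (jqModC ℤ)).symm⟩⟩
  have h := congrArg intToRat hauptThree_mul_quotThree
  have he := congrArg intToRat quotThree_equation
  have hs := congrArg intToRat quotThree_sq
  have hjq : intToRat (jqModC ℤ) = jqModC ℚ := coeffMap_jqModC _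
  simp only [map_mul, map_pow, map_add, map_ofNat] at h he hs
  rw [hjq] at he hj
  set y := intToRat quotThree
  set w := intToRat (quotW 3)
  have hlin : y * (36 * w + 756 - jqModC ℚ) = -(w ^ 2 + 270 * w + 729) := by
    linear_combination he + (-36 * y - y ^ 2 - w - 270) * hs
  have hne : 36 * w + 756 - jqModC ℚ ≠ 0 := fun h0 => by
    have halg : IsAlgebraic ℚ w :=
      ⟨Polynomial.X ^ 2 + Polynomial.C 270 * Polynomial.X + Polynomial.C 729, by
        intro hz
        simpa using congrArg (fun r : ℚ[X] => r.coeff 2) hz, by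
        rw [h0, mul_zero] at hlin
        simp only [map_add, map_mul, map_pow, aeval_X, map_ofNat]
        linear_combination hlin⟩
    refine transcendental_jqModC ℚ ?_
    rw [← sub_eq_zero.1 h0]
    have h36 := ((isAlgebraic_algebraMap (A := LaurentSeries ℚ) (36 : ℚ)).mul halg).add
      (isAlgebraic_algebraMap (A := LaurentSeries ℚ) (756 : ℚ))
    rwa [map_ofNat, map_ofNat] at h36
  have hy : y ∈ modularFunctionFieldFull M := by
    rw [eq_div_of_mul_eq hne hlin]
    exact div_mem (neg_mem (add_mem (add_mem (pow_mem hw 2) (mul_mem (ofNat_mem _ 270) hw))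
      (ofNat_mem _ 729))) (sub_mem (add_mem (mul_mem (ofNat_mem _ 36) hw) (ofNat_mem _ 756)) hj)
  have h7 : (729 : LaurentSeries ℚ) ≠ 0 := by
    exact_mod_cast natCast_ne_zero_laurent (R := ℚ) (n := 729) (by norm_num)
  have hy0 : y ≠ 0 := fun h0 => h7 (by rw [← h, h0, mul_zero])
  rw [eq_div_of_mul_eq hy0 h]
  exact div_mem (ofNat_mem _ 729) hy

section Reduction

variable (A : ValuationSubring (AlgebraicClosure ℚ)) {l : ℕ} [Fact l.Prime]
  (hA : A.LiesOverPrime l) (M : ℕ) [NeZero M] (hlM : ¬ l ∣ M)

theorem mem_bar_of_intToRat {x : LaurentSeries ℤ} (h : intToRat x ∈ modularFunctionFieldFull M) :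
    iotaL A (intA A x) ∈ modularFunctionFieldBar M := by
  rw [iotaL_intA, show coeffMap (Int.castRingHom Qbar) x = coeffEmb Qbar (intToRat x) from by
    rw [coeffEmb, intToRat, coeffMap_coeffMap]
    exact coeffMap_congr (RingHom.ext_int _ _) _]
  exact coeffEmb_mem_laurentBaseChange _ h

include hA hlM in
/-- An integral series in the modular function field reduces into that of the residue field. -/
theorem mem_fullC_of_intToRat {x : LaurentSeries ℤ} (h : intToRat x ∈ modularFunctionFieldFull M) :
    coeffMap (residue A) (intA A x) ∈ modularFunctionFieldFullC (ResidueField A) M := by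
  have := (x0Basis A hA M hlM).value_mem (isResidueMap_residue A)
    (y := ⟨_, mem_bar_of_intToRat A M h⟩) (a := intA A x) (b := 1)
    ⟨by rw [map_one]; exact one_ne_zero, by rw [map_one, mul_one]⟩
  rwa [map_one, div_one] at this

end Reduction

end FLTAgent.GoodRed.SmallPrime
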