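import Fermat.Agent.Genus.Export
import Fermat.Agent.GoodRed.X0Good

/-!
# Ramification over a coordinate of which `j` is a rational function

If `j * Q (x) = P (x)` and `P - α Q` vanishes to order `m` at `a` while the ramification index of
`j` over `α` is at most `m`, then `x - a` vanishes simply.
-/

set_option autoImplicit false
set_option linter.unusedSectionVars false
set_option synthInstance.maxHeartbeats 100000

noncomputable section

open Polynomial ModularCurve AlgebraicCurve
open scoped IntermediateField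

namespace FLTAgent.GoodRed.SmallPrime

open FLTAgent.FunctionField

section Field

variable {K F : Type*} [Field K] [Field F] [Algebra K F] {v : Place K F}

theorem ordGe_sub_eval {x : F} {a : K} (hv : 0 < v.ord (x - algebraMap K F a)) (Q : K[X]) :
    OrdGe v 0 x ∧ OrdGe v 1 (aeval x Q - algebraMap K F (Q.eval a)) := by
  have hx : OrdGe v 0 x := by
    have h := (ordGe_of_le_ord (v := v) (f := x - algebraMap K F a) (n := 0) hv.le).add
      (ordGe_algebraMap (v := v) a)
    rwa [sub_add_cancel] at h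
  refine ⟨hx, ?_⟩
  obtain ⟨s, hs⟩ := X_sub_C_dvd_sub_C_eval (a := a) (p := Q)
  have h := congrArg (aeval x) hs
  rw [map_sub, aeval_C, map_mul, map_sub, aeval_X, aeval_C] at h
  rw [h]
  simpa using (ordGe_of_le_ord (v := v) (f := x - algebraMap K F a) (n := 1) (by omega)).mul
    (ordGe_aeval hx s)

theorem ord_eq_one_of_pow_dvd {x j : F} (hx : Transcendental K x) {P Q : K[X]}
    (hdeg : Q.natDegree < P.natDegree) (hy : j * aeval x Q = aeval x P) {a α : K} {m : ℕ}
    (hm : 0 < m) (hQa : Q.eval a ≠ 0) (hdvd : (X - C a) ^ m ∣ P - C α * Q)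
    (hv : 0 < v.ord (x - algebraMap K F a))
    (hord : 0 < v.ord (j - algebraMap K F α) → v.ord (j - algebraMap K F α) ≤ m) :
    v.ord (x - algebraMap K F a) = 1 := by
  obtain ⟨hx0, hQ1⟩ := ordGe_sub_eval hv Q
  have hQa' : algebraMap K F (Q.eval a) ≠ 0 := by simpa using hQa
  obtain ⟨hQne, hQord⟩ := ord_eq_of_ordGe_sub hQ1 hQa' (by rw [ord_algebraMap]; omega)
  rw [ord_algebraMap] at hQord
  have hne : P - C α * Q ≠ 0 := fun h => by
    have h1 := congrArg natDegree (sub_eq_zero.1 h)
    have h2 := natDegree_C_mul_le α Q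
    omega
  have hid : (j - algebraMap K F α) * aeval x Q = aeval x (P - C α * Q) := by
    rw [sub_mul, hy, map_sub, map_mul, aeval_C]
  have hne' : aeval x (P - C α * Q) ≠ 0 := fun h => hne (transcendental_iff.1 hx _ h)
  obtain ⟨r, hr⟩ := hdvd
  have hge : OrdGe v ((m : ℤ) * v.ord (x - algebraMap K F a)) (aeval x (P - C α * Q)) := by
    rw [hr, map_mul, map_pow, map_sub, aeval_X, aeval_C]
    have h1 := (ordGe_of_le_ord (v := v) (f := (x - algebraMap K F a) ^ m)
      (n := (m : ℤ) * v.ord (x - algebraMap K F a)) (le_of_eq (ord_pow _ m).symm)).mul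
      (ordGe_aeval hx0 r)
    simpa using h1
  have hle := hge.le_ord hne'
  have hjne : j - algebraMap K F α ≠ 0 := fun h => hne' (by rw [← hid, h, zero_mul])
  rw [← hid, v.ord_mul hjne hQne, hQord, add_zero] at hle
  set e := v.ord (x - algebraMap K F a)
  have hm' : (1 : ℤ) ≤ m := by exact_mod_cast hm
  have := hord (by nlinarith)
  nlinarith

end Field

local notation "Qbar" => AlgebraicClosure ℚ

/-- The ramification indices of `j`. -/
theorem ord_sub_le_of_eq_modularC {M : ℕ} [NeZero M]
    {E : IntermediateField Qbar (LaurentSeries Qbar)} (hE : E = modularFunctionFieldC Qbar M)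
    (j : E) (hj : (j : LaurentSeries Qbar) = jqModC Qbar) {α : Qbar} {v : Place Qbar E}
    (hv : 0 < v.ord (j - algebraMap Qbar E α)) :
    (α = 0 → v.ord (j - algebraMap Qbar E α) ≤ 3) ∧
      (α = 1728 → v.ord (j - algebraMap Qbar E α) ≤ 2) ∧
      (α ≠ 0 → α ≠ 1728 → v.ord (j - algebraMap Qbar E α) ≤ 1) := by
  subst hE
  have he : j = Genus.jEl Qbar M := Subtype.ext hj
  subst he
  have : Algebra.IsAlgebraic ℚ Qbar := AlgebraicClosure.isAlgebraic ℚ
  set ι := (IsAlgClosed.lift (R := ℚ) (S := Qbar) (M := ℂ)).toRingHom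
  refine ⟨?_, ?_, fun h0 h1 => (Genus.ord_eq_one_of_ne ι h0 h1 hv).le⟩
  · rintro rfl
    exact Int.le_of_dvd (by norm_num) (Genus.ord_jEl_dvd_three ι hv)
  · rintro rfl
    exact Int.le_of_dvd (by norm_num) (Genus.ord_sub_1728_dvd_two ι hv)

end FLTAgent.GoodRed.SmallPrime
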