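import Fermat.Agent.GoodRed.SmallPrime.Degree
import Fermat.Agent.GoodRed.SmallPrime.Member
import Fermat.Agent.GoodRed.SmallPrime.Ramify

/-!
# Good reduction at the primes two and three

Equality of genus of the function field of level `M` over `Qbar` and over the residue field at
`l = 3` for even `M` and at `l = 2` for `3 ∣ M`, by the coordinates of levels two and three.
-/

set_option autoImplicit false
set_option linter.unusedSectionVars false
set_option synthInstance.maxHeartbeats 100000

noncomputable section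

open Polynomial ModularCurve IsLocalRing AlgebraicCurve
open scoped IntermediateField

namespace FLTAgent.GoodRed.SmallPrime

open FLTAgent.FunctionField FLTAgent.Igusa

local notation "Qbar" => AlgebraicClosure ℚ

theorem hauptTwo_equation_map (R : Type*) [CommRing R] :
    jqModC R * coeffMap (Int.castRingHom R) hauptTwo ^ 2 =
      (coeffMap (Int.castRingHom R) hauptTwo + 256) ^ 3 := by
  have h := congrArg (coeffMap (Int.castRingHom R)) hauptTwo_equation
  simpa only [map_mul, map_pow, map_add, map_ofNat, coeffMap_jqModC] using h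

theorem hauptThree_equation_map (R : Type*) [CommRing R] :
    jqModC R * coeffMap (Int.castRingHom R) hauptThree ^ 3 =
      (coeffMap (Int.castRingHom R) hauptThree + 27) *
        (coeffMap (Int.castRingHom R) hauptThree + 243) ^ 3 := by
  have h := congrArg (coeffMap (Int.castRingHom R)) hauptThree_equation
  simpa only [map_mul, map_pow, map_add, map_ofNat, coeffMap_jqModC] using h

theorem isCoprime_X_add_C_X {K : Type*} [Field K] {c : K} (hc : c ≠ 0) :
    IsCoprime (X + C c : K[X]) X :=
  ⟨C c⁻¹, -C c⁻¹, by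
    have hc' : (C c⁻¹ * C c : K[X]) = 1 := by rw [← map_mul, inv_mul_cancel₀ hc, map_one]
    linear_combination hc'⟩

variable (A : ValuationSubring (AlgebraicClosure ℚ)) {l : ℕ} [Fact l.Prime]
  (hA : A.LiesOverPrime l) (M : ℕ) [NeZero M] (hlM : ¬ l ∣ M)

include hA in
theorem ofNat_residue_ne_zero {c : ℕ} (h : ¬ l ∣ c) : (c : ResidueField A) ≠ 0 :=
  natCast_residue_ne_zero hA h

theorem injOn_residue_pair {b : A} (hb : residue A b ≠ 0) :
    Set.InjOn (residue A) (↑({0, b} : Finset A) : Set A) := by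
  intro x hx y hy hxy
  simp only [Finset.coe_insert, Finset.coe_singleton, Set.mem_insert_iff,
    Set.mem_singleton_iff] at hx hy
  rcases hx with rfl | rfl <;> rcases hy with rfl | rfl
  · rfl
  · rw [map_zero] at hxy; exact absurd hxy.symm hb
  · rw [map_zero] at hxy; exact absurd hxy hb
  · rfl

include hA hlM in
/-- Equality of genus from a coordinate of which `j` is a rational function. -/
theorem genusFF_eq_of_series {z : LaurentSeries ℤ} (hz : intToRat z ∈ modularFunctionFieldFull M)
    {P Q : Qbar[X]} {Pb Qb : (ResidueField A)[X]} (hPQ : IsCoprime P Q) (hPQb : IsCoprime Pb Qb)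
    (hdeg : Q.natDegree < P.natDegree) (hdegb : Qb.natDegree < Pb.natDegree)
    (hPd : Pb.natDegree = P.natDegree)
    (hy : jqModC Qbar * aeval (coeffMap (Int.castRingHom Qbar) z) Q =
      aeval (coeffMap (Int.castRingHom Qbar) z) P)
    (hyb : jqModC (ResidueField A) * aeval (coeffMap (Int.castRingHom (ResidueField A)) z) Qb =
      aeval (coeffMap (Int.castRingHom (ResidueField A)) z) Pb)
    (S : Finset A) (hS : Set.InjOn (residue A) S)
    (hroot : ∀ a : Qbar, (∀ s ∈ S, (s : Qbar) ≠ a) → Q.eval a ≠ 0 ∧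
      ∃ (α : Qbar) (m : ℕ), 0 < m ∧ (X - C a) ^ m ∣ P - C α * Q ∧
        ((α = 0 ∧ m = 3) ∨ (α = 1728 ∧ m = 2) ∨ (α ≠ 0 ∧ α ≠ 1728 ∧ m = 1))) :
    genusFF Qbar (modularFunctionFieldBar M) =
      genusFF (ResidueField A) (modularFunctionFieldFullC (ResidueField A) M) := by
  classical
  have := isFunctionField_bar A hA M hlM
  have := isFunctionField_fullC A hA M hlM
  have := isAlgClosed_residue A
  set j := x0J A hA M hlM
  set jb := x0Jb A hA M hlM
  set x : modularFunctionFieldBar M := ⟨_, mem_bar_of_intToRat A M hz⟩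
  set xb : modularFunctionFieldFullC (ResidueField A) M :=
    ⟨_, mem_fullC_of_intToRat A hA M hlM hz⟩
  have hred : (x0Datum A hA M hlM).Red x xb :=
    (x0Basis A hA M hlM).red_of_series (isResidueMap_residue A) rfl rfl
  have hjb : Transcendental (ResidueField A) jb := transcendental_x0Jb A hA M hlM
  have hj : Transcendental Qbar j := RedDatum.transcendental_of_red (red_x0J A hA M hlM) hjb
  have hy' : j * aeval x Q = aeval x P := by
    refine Subtype.ext ?_
    show (j : LaurentSeries Qbar) * (modularFunctionFieldBar M).val (aeval x Q) =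
      (modularFunctionFieldBar M).val (aeval x P)
    rw [← aeval_algHom_apply (modularFunctionFieldBar M).val x Q,
      ← aeval_algHom_apply (modularFunctionFieldBar M).val x P]
    show (j : LaurentSeries Qbar) * aeval (iotaL A (intA A z)) Q = aeval (iotaL A (intA A z)) P
    rw [coe_x0J A hA M hlM, iotaL_intA]
    exact hy
  have hyb' : jb * aeval xb Qb = aeval xb Pb := by
    refine Subtype.ext ?_
    show (jb : LaurentSeries (ResidueField A)) *
        (modularFunctionFieldFullC (ResidueField A) M).val (aeval xb Qb) =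
      (modularFunctionFieldFullC (ResidueField A) M).val (aeval xb Pb)
    rw [← aeval_algHom_apply (modularFunctionFieldFullC (ResidueField A) M).val xb Qb,
      ← aeval_algHom_apply (modularFunctionFieldFullC (ResidueField A) M).val xb Pb]
    show (jb : LaurentSeries (ResidueField A)) * aeval (coeffMap (residue A) (intA A z)) Qb =
      aeval (coeffMap (residue A) (intA A z)) Pb
    rw [coe_x0Jb A hA M hlM, residue_intA]
    exact hyb
  have hx : Transcendental Qbar x := transcendental_of_equation hj hPQ hy'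
  have hxb : Transcendental (ResidueField A) xb := transcendental_of_equation hjb hPQb hyb'
  refine genusFF_eq_of_coordinate hred hxb
    (noDefect_of_equation hx hxb hPQ hPQb hdeg hdegb hPd hy' hyb' (noDefect_x0J A hA M hlM))
    (isSeparable_adjoin_of_equation hxb (den_ne_zero hPQb hdegb) hyb'
      (isSeparable_x0Jb A hA M hlM)) S hS ?_
  intro a ha v hv
  obtain ⟨hQa, α, m, hm, hdvd, hcases⟩ := hroot a ha
  refine ord_eq_one_of_pow_dvd hx hdeg hy' hm hQa hdvd hv fun hpos => ?_
  obtain ⟨h3, h2, h1⟩ := ord_sub_le_of_eq_modularC (ModPoly.modularFunctionFieldBar_eq M) j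
    (coe_x0J A hA M hlM) hpos
  rcases hcases with ⟨h, rfl⟩ | ⟨h, rfl⟩ | ⟨h0, h', rfl⟩
  · exact h3 h
  · exact h2 h
  · exact h1 h0 h'

theorem dvd_sub_of_eval_eq_zero {K : Type*} [Field K] {p : K[X]} {a : K} (h : p.eval a = 0) :
    (X - C a) ^ 1 ∣ p := by
  rw [pow_one]; exact dvd_iff_isRoot.2 h

include hA in
/-- Equality of genus at `3` for even level. -/
theorem genusFF_eq_x0_three (hl : l = 3) (hlM : ¬ l ∣ M) (hM : 2 ∣ M) :
    genusFF Qbar (modularFunctionFieldBar M) =
      genusFF (ResidueField A) (modularFunctionFieldFullC (ResidueField A) M) := by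
  classical
  subst hl
  have h256 : ((256 : ℕ) : ResidueField A) ≠ 0 := ofNat_residue_ne_zero A hA (by norm_num)
  have h64 : ((64 : ℕ) : ResidueField A) ≠ 0 := ofNat_residue_ne_zero A hA (by norm_num)
  have h256' : (256 : Qbar) ≠ 0 := by norm_num
  have hd : ∀ (K : Type) [Field K] (c : K),
      ((X + C c) ^ 3 : K[X]).natDegree = 3 ∧ (X ^ 2 : K[X]).natDegree = 2 := fun K _ c =>
    ⟨by rw [natDegree_pow, natDegree_X_add_C], natDegree_X_pow 2⟩
  refine genusFF_eq_of_series A hA M hlM (intToRat_hauptTwo_mem hM)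
    (P := (X + C 256) ^ 3) (Q := X ^ 2) (Pb := (X + C 256) ^ 3) (Qb := X ^ 2)
    (isCoprime_X_add_C_X h256').pow (isCoprime_X_add_C_X (by exact_mod_cast h256)).pow
    (by rw [(hd _ 256).1, (hd Qbar 256).2]; norm_num)
    (by rw [(hd _ 256).1, (hd (ResidueField A) 256).2]; norm_num)
    (by rw [(hd _ 256).1, (hd _ 256).1]) ?_ ?_ {0, -64} ?_ ?_
  · simp only [map_pow, map_add, aeval_X, aeval_C, map_ofNat]
    exact hauptTwo_equation_map Qbar
  · simp only [map_pow, map_add, aeval_X, aeval_C, map_ofNat]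
    exact hauptTwo_equation_map (ResidueField A)
  · refine injOn_residue_pair A ?_
    rw [map_neg, map_ofNat, neg_ne_zero]
    exact_mod_cast h64
  intro a ha
  have ha0 : a ≠ 0 := fun h => ha 0 (by simp) (by simp [h])
  have ha64 : a + 64 ≠ 0 := fun h => ha (-64) (by simp) (by
    show A.subtype (-64) = a
    rw [map_neg, map_ofNat]
    linear_combination -h)
  refine ⟨by simpa using pow_ne_zero 2 ha0, ?_⟩
  set α := (a + 256) ^ 3 / a ^ 2 with hα
  have hαQ : (a + 256) ^ 3 = α * a ^ 2 := by rw [hα, div_mul_cancel₀ _ (pow_ne_zero 2 ha0)]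
  by_cases h0 : α = 0
  · refine ⟨α, 3, by norm_num, ?_, Or.inl ⟨h0, rfl⟩⟩
    have h : a = -256 := by
      rw [h0, zero_mul] at hαQ
      exact eq_neg_of_add_eq_zero_left (eq_zero_of_pow_eq_zero hαQ)
    rw [h0, h, map_zero, zero_mul, sub_zero, map_neg, sub_neg_eq_add]
  by_cases h1 : α = 1728
  · refine ⟨α, 2, by norm_num, ⟨X + C 64, ?_⟩, Or.inr (Or.inl ⟨h1, rfl⟩)⟩
    have h : (a - 512) ^ 2 * (a + 64) = 0 := by rw [h1] at hαQ; linear_combination hαQ
    have h' : a = 512 := sub_eq_zero.1
      (eq_zero_of_pow_eq_zero ((mul_eq_zero.1 h).resolve_right ha64))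
    rw [h1, h']
    simp only [map_ofNat]
    ring
  exact ⟨α, 1, one_pos, dvd_sub_of_eval_eq_zero (by simp [hαQ]), Or.inr (Or.inr ⟨h0, h1, rfl⟩)⟩

include hA in
/-- Equality of genus at `2` for level divisible by `3`. -/
theorem genusFF_eq_x0_two (hl : l = 2) (hlM : ¬ l ∣ M) (hM : 3 ∣ M) :
    genusFF Qbar (modularFunctionFieldBar M) =
      genusFF (ResidueField A) (modularFunctionFieldFullC (ResidueField A) M) := by
  classical
  subst hl
  have h27 : ((27 : ℕ) : ResidueField A) ≠ 0 := ofNat_residue_ne_zero A hA (by norm_num)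
  have h243 : ((243 : ℕ) : ResidueField A) ≠ 0 := ofNat_residue_ne_zero A hA (by norm_num)
  have hd : ∀ (K : Type) [Field K] (c d : K),
      ((X + C c) * (X + C d) ^ 3 : K[X]).natDegree = 4 ∧ (X ^ 3 : K[X]).natDegree = 3 :=
    fun K _ c d =>
      ⟨by rw [natDegree_mul (X_add_C_ne_zero c) (pow_ne_zero 3 (X_add_C_ne_zero d)), natDegree_pow,
        natDegree_X_add_C, natDegree_X_add_C], natDegree_X_pow 3⟩
  have hco : ∀ {K : Type} [Field K] (c d : K), c ≠ 0 → d ≠ 0 →
      IsCoprime ((X + C c) * (X + C d) ^ 3) (X ^ 3 : K[X]) := fun c d hc hd' =>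
    ((isCoprime_X_add_C_X hc).mul_left (isCoprime_X_add_C_X hd').pow_left).pow_right
  refine genusFF_eq_of_series A hA M hlM (intToRat_hauptThree_mem hM)
    (P := (X + C 27) * (X + C 243) ^ 3) (Q := X ^ 3)
    (Pb := (X + C 27) * (X + C 243) ^ 3) (Qb := X ^ 3)
    (hco 27 243 (by norm_num) (by norm_num))
    (hco 27 243 (by exact_mod_cast h27) (by exact_mod_cast h243))
    (by rw [(hd _ 27 243).1, (hd Qbar 27 243).2]; norm_num)
    (by rw [(hd _ 27 243).1, (hd (ResidueField A) 27 243).2]; norm_num)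
    (by rw [(hd _ 27 243).1, (hd _ 27 243).1]) ?_ ?_ {0, -27} ?_ ?_
  · simp only [map_mul, map_pow, map_add, aeval_X, aeval_C, map_ofNat]
    exact hauptThree_equation_map Qbar
  · simp only [map_mul, map_pow, map_add, aeval_X, aeval_C, map_ofNat]
    exact hauptThree_equation_map (ResidueField A)
  · refine injOn_residue_pair A ?_
    rw [map_neg, map_ofNat, neg_ne_zero]
    exact_mod_cast h27
  intro a ha
  have ha0 : a ≠ 0 := fun h => ha 0 (by simp) (by simp [h])
  have ha27 : a + 27 ≠ 0 := fun h => ha (-27) (by simp) (by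
    show A.subtype (-27) = a
    rw [map_neg, map_ofNat]
    linear_combination -h)
  refine ⟨by simpa using pow_ne_zero 3 ha0, ?_⟩
  set α := (a + 27) * (a + 243) ^ 3 / a ^ 3 with hα
  have hαQ : (a + 27) * (a + 243) ^ 3 = α * a ^ 3 := by
    rw [hα, div_mul_cancel₀ _ (pow_ne_zero 3 ha0)]
  by_cases h0 : α = 0
  · refine ⟨α, 3, by norm_num, ?_, Or.inl ⟨h0, rfl⟩⟩
    have h : a = -243 := by
      rw [h0, zero_mul] at hαQ
      exact eq_neg_of_add_eq_zero_left
        (eq_zero_of_pow_eq_zero ((mul_eq_zero.1 hαQ).resolve_left ha27))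
    rw [h0, h, map_zero, zero_mul, sub_zero, map_neg, sub_neg_eq_add]
    exact dvd_mul_left _ _
  by_cases h1 : α = 1728
  · refine ⟨α, 2, by norm_num, ?_, Or.inr (Or.inl ⟨h1, rfl⟩)⟩
    have h : a ^ 2 - 486 * a - 19683 = 0 := by
      rw [h1] at hαQ
      exact eq_zero_of_pow_eq_zero (n := 2) (by linear_combination hαQ)
    rw [h1, show (X + C 27) * (X + C 243) ^ 3 - C 1728 * X ^ 3 =
        (X ^ 2 - C 486 * X - C 19683 : Qbar[X]) ^ 2 from by simp only [map_ofNat]; ring]
    exact pow_dvd_pow_of_dvd (dvd_iff_isRoot.2 (by simpa [IsRoot] using h)) 2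
  exact ⟨α, 1, one_pos, dvd_sub_of_eval_eq_zero (by simp [hαQ]), Or.inr (Or.inr ⟨h0, h1, rfl⟩)⟩

end FLTAgent.GoodRed.SmallPrime
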