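import Fermat.Agent.GoodRed.Extension
import Mathlib.FieldTheory.RatFunc.IntermediateField
import Mathlib.FieldTheory.Relrank

/-!
# Changing the coordinate along a rational function

If `j * Q (x) = P (x)` with `P`, `Q` coprime and `deg Q < deg P = d` then the degree over `K (j)` is
`d` times the degree over `K (x)`.
-/

set_option autoImplicit false
set_option linter.unusedSectionVars false

noncomputable section

open Polynomial
open scoped IntermediateField

namespace FLTAgent.GoodRed.SmallPrime

section Field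

variable {K F : Type*} [Field K] [Field F] [Algebra K F] {x y : F} {P Q : K[X]}

theorem den_ne_zero (hPQ : IsCoprime P Q) (hdeg : Q.natDegree < P.natDegree) : Q ≠ 0 := by
  rintro rfl
  rw [isCoprime_zero_right] at hPQ
  rw [natDegree_eq_zero_of_isUnit hPQ] at hdeg
  exact Nat.not_lt_zero _ hdeg

theorem mem_adjoin_of_equation (hx : Transcendental K x) (hQ : Q ≠ 0)
    (hy : y * aeval x Q = aeval x P) : y ∈ K⟮x⟯ := by
  have hQx : aeval x Q ≠ 0 := fun h => hQ (transcendental_iff.1 hx _ h)
  refine (IntermediateField.mem_adjoin_simple_iff K y).2 ⟨P, Q, ?_⟩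
  rw [← hy, mul_div_cancel_right₀ _ hQx]

/-- The degree in the new coordinate. -/
theorem finrank_adjoin_equation (hx : Transcendental K x) (hPQ : IsCoprime P Q)
    (hdeg : Q.natDegree < P.natDegree) (hy : y * aeval x Q = aeval x P) :
    Module.finrank K⟮y⟯ F = P.natDegree * Module.finrank K⟮x⟯ F := by
  classical
  have hQ := den_ne_zero hPQ hdeg
  set f : RatFunc K := algebraMap K[X] (RatFunc K) P / algebraMap K[X] (RatFunc K) Q with hf
  let φ : RatFunc K →ₐ[K] F := RatFunc.liftAlgHom (aeval x)
    (nonZeroDivisors_le_comap_nonZeroDivisors_of_injective _ (transcendental_iff_injective.1 hx))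
  have hφX : φ RatFunc.X = x := by
    have h := RatFunc.liftAlgHom_apply_div (aeval x)
      (nonZeroDivisors_le_comap_nonZeroDivisors_of_injective _
        (transcendental_iff_injective.1 hx)) (X : K[X]) 1
    simpa [φ] using h
  have hφf : φ f = y := by
    have hQx : aeval x Q ≠ 0 := fun h => hQ (transcendental_iff.1 hx _ h)
    rw [hf]
    show RatFunc.liftAlgHom _ _ _ = _
    rw [RatFunc.liftAlgHom_apply_div, ← hy, mul_div_cancel_right₀ _ hQx]
  have hmy : (K⟮f⟯).map φ = K⟮y⟯ := by
    rw [IntermediateField.adjoin_map, Set.image_singleton, hφf]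
  have hmx : (⊤ : IntermediateField K (RatFunc K)).map φ = K⟮x⟯ := by
    rw [← RatFunc.adjoin_X, IntermediateField.adjoin_map, Set.image_singleton, hφX]
  have hle : K⟮y⟯ ≤ K⟮x⟯ :=
    IntermediateField.adjoin_simple_le_iff.2 (mem_adjoin_of_equation hx hQ hy)
  have hrel : IntermediateField.relfinrank K⟮y⟯ K⟮x⟯ = P.natDegree := by
    rw [← hmy, ← hmx, IntermediateField.relfinrank_map_map,
      IntermediateField.relfinrank_top_right, RatFunc.finrank_eq_max_natDegree]
    have hgcd : gcd P Q = 1 :=
      (normalize_gcd P Q).symm.trans (normalize_eq_one.2 ((gcd_isUnit_iff P Q).2 hPQ))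
    rw [hf, RatFunc.num_div, RatFunc.denom_div _ hQ, hgcd, EuclideanDomain.div_one,
      EuclideanDomain.div_one, natDegree_C_mul (inv_ne_zero (leadingCoeff_ne_zero.2 hQ)),
      natDegree_C_mul (inv_ne_zero (leadingCoeff_ne_zero.2 hQ)), max_eq_left hdeg.le]
  rw [← IntermediateField.relfinrank_mul_finrank_top hle, hrel]

theorem transcendental_of_equation {j : F} (hj : Transcendental K j) (hPQ : IsCoprime P Q)
    (hy : j * aeval x Q = aeval x P) : Transcendental K x := by
  intro hx
  have hQ : aeval x Q ≠ 0 := fun h => by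
    obtain ⟨u, v, huv⟩ := hPQ
    have h1 := congrArg (aeval x) huv
    rw [map_add, map_mul, map_mul, map_one, ← hy, h] at h1
    simp at h1
  have := IntermediateField.isAlgebraic_adjoin_simple hx.isIntegral
  have hmem : j ∈ K⟮x⟯ := by
    refine (IntermediateField.mem_adjoin_simple_iff K j).2 ⟨P, Q, ?_⟩
    rw [← hy, mul_div_cancel_right₀ _ hQ]
  exact hj (IntermediateField.isAlgebraic_iff.1
    (Algebra.IsAlgebraic.isAlgebraic (⟨j, hmem⟩ : K⟮x⟯)))

/-- Separability over the smaller coordinate gives it over the larger one. -/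
theorem isSeparable_adjoin_of_equation (hx : Transcendental K x) (hQ : Q ≠ 0)
    (hy : y * aeval x Q = aeval x P) (h : Algebra.IsSeparable K⟮y⟯ F) :
    Algebra.IsSeparable K⟮x⟯ F := by
  have := h
  have hle : K⟮y⟯ ≤ K⟮x⟯ :=
    IntermediateField.adjoin_simple_le_iff.2 (mem_adjoin_of_equation hx hQ hy)
  let : Algebra K⟮y⟯ K⟮x⟯ := (IntermediateField.inclusion hle).toRingHom.toAlgebra
  have : IsScalarTower K⟮y⟯ K⟮x⟯ F := IsScalarTower.of_algebraMap_eq fun _ => rfl
  exact Algebra.isSeparable_tower_top_of_isSeparable K⟮y⟯ K⟮x⟯ F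

end Field

/-- No defect passes to a coordinate of the same degree. -/
theorem noDefect_of_equation {L k F Fb : Type*} [Field L] [Field k] [Field F] [Field Fb]
    [Algebra L F] [Algebra k Fb] {x j : F} {xb jb : Fb} {P Q : L[X]} {Pb Qb : k[X]}
    (hx : Transcendental L x) (hxb : Transcendental k xb) (hPQ : IsCoprime P Q)
    (hPQb : IsCoprime Pb Qb) (hdeg : Q.natDegree < P.natDegree)
    (hdegb : Qb.natDegree < Pb.natDegree) (hPd : Pb.natDegree = P.natDegree)
    (hy : j * aeval x Q = aeval x P) (hyb : jb * aeval xb Qb = aeval xb Pb)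
    (hd : NoDefect L⟮j⟯ k⟮jb⟯ F Fb) : NoDefect L⟮x⟯ k⟮xb⟯ F Fb := by
  have h : Module.finrank k⟮jb⟯ Fb = Module.finrank L⟮j⟯ F := hd
  rw [finrank_adjoin_equation hx hPQ hdeg hy, finrank_adjoin_equation hxb hPQb hdegb hyb, hPd] at h
  exact Nat.eq_of_mul_eq_mul_left (Nat.lt_of_le_of_lt (Nat.zero_le _) hdeg) h

end FLTAgent.GoodRed.SmallPrime
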