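import Fermat.Prelude.Def_ModularCurve_X0
import Fermat.Agent.Igusa.LevelOne

/-!
# The first thirteen coefficients of `η`, `E₄ ^ 3`, `Δ` and some of their powers
-/

set_option autoImplicit false

noncomputable section

open PowerSeries ModularCurve
open scoped PowerSeries.WithPiTopology

namespace FLTAgent.GoodRed.SmallPrime

/-- The number of coefficients we follow. -/
abbrev numCoeff : ℕ := 13

/-- `f` starts with the coefficients `l`. -/
def StartsWith (f : PowerSeries ℤ) (l : List ℤ) : Prop :=
  ∀ n < numCoeff, coeff n f = l.getD n 0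

/-- Product of truncated series. -/
def convList (a b : List ℤ) : List ℤ :=
  (List.range numCoeff).map fun n =>
    ((List.range (n + 1)).map fun i => a.getD i 0 * b.getD (n - i) 0).sum

theorem StartsWith.mul {f g : PowerSeries ℤ} {a b c : List ℤ} (hf : StartsWith f a)
    (hg : StartsWith g b) (h : convList a b = c) : StartsWith (f * g) c := by
  intro n hn
  subst h
  rw [PowerSeries.coeff_mul, Finset.Nat.sum_antidiagonal_eq_sum_range_succ_mk, convList,
    List.getD_eq_getElem _ _ (by simpa using hn)]
  simp only [List.getElem_map, List.getElem_range]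
  rw [← List.sum_toFinset _ List.nodup_range, List.toFinset_range]
  refine Finset.sum_congr rfl fun i hi => ?_
  have hi' := Finset.mem_range.mp hi
  rw [hf i (by omega), hg (n - i) (by omega)]

theorem startsWith_one : StartsWith 1 [1, 0, 0, 0, 0, 0, 0, 0, 0, 0, 0, 0, 0] := by
  intro n hn
  rw [PowerSeries.coeff_one]
  interval_cases n <;> simp

/-- The coefficients of `1 - X ^ (m + 1)`. -/
def factorList (m : ℕ) : List ℤ :=
  (List.range numCoeff).map fun n => if n = 0 then 1 else if n = m + 1 then -1 else 0

theorem startsWith_factor (m : ℕ) :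
    StartsWith (1 - PowerSeries.X ^ (m + 1)) (factorList m) := by
  intro n hn
  rw [map_sub, PowerSeries.coeff_one, PowerSeries.coeff_X_pow, factorList,
    List.getD_eq_getElem _ _ (by simpa using hn)]
  simp only [List.getElem_map, List.getElem_range]
  split_ifs <;> omega

/-- The coefficients of the partial products of `η`. -/
def prodList : ℕ → List ℤ
  | 0 => [1, 0, 0, 0, 0, 0, 0, 0, 0, 0, 0, 0, 0]
  | m + 1 => convList (prodList m) (factorList m)

theorem startsWith_prod : ∀ m,
    StartsWith (∏ i ∈ Finset.range m, (1 - PowerSeries.X ^ (i + 1))) (prodList m)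
  | 0 => by rw [Finset.prod_range_zero, prodList]; exact startsWith_one
  | m + 1 => by
    rw [Finset.prod_range_succ]
    exact (startsWith_prod m).mul (startsWith_factor m) rfl

theorem coeff_prod_eq_of_le {n : ℕ} {s : Finset ℕ} (hs : Finset.range n ⊆ s) :
    coeff n (∏ i ∈ s, (1 - PowerSeries.X ^ (i + 1) : PowerSeries ℤ)) =
      coeff n (∏ i ∈ Finset.range n, (1 - PowerSeries.X ^ (i + 1) : PowerSeries ℤ)) := by
  rw [← Finset.prod_sdiff hs]
  have h : ∀ t : Finset ℕ, (∀ i ∈ t, n ≤ i) → ∀ g : PowerSeries ℤ,
      coeff n ((∏ i ∈ t, (1 - PowerSeries.X ^ (i + 1))) * g) = coeff n g := by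
    intro t
    induction t using Finset.induction_on with
    | empty => intro _ g; simp
    | insert a t ha ih =>
      intro hge g
      rw [Finset.prod_insert ha, mul_assoc, sub_mul, one_mul, map_sub,
        ih (fun i hi => hge i (Finset.mem_insert_of_mem hi)), PowerSeries.coeff_X_pow_mul',
        if_neg (by have := hge a (Finset.mem_insert_self a t); omega), sub_zero]
  exact h _ (fun i hi => by simpa using (Finset.mem_sdiff.mp hi).2) _

theorem coeff_etaProd {n : ℕ} (hn : n < numCoeff) :
    coeff n etaProd =
      coeff n (∏ i ∈ Finset.range numCoeff, (1 - PowerSeries.X ^ (i + 1) : PowerSeries ℤ)) := by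
  have hm := (PowerSeries.WithPiTopology.multipliable_one_sub_X_pow ℤ).hasProd
  have ht := ((PowerSeries.WithPiTopology.continuous_coeff ℤ n).tendsto _).comp hm
  refine tendsto_nhds_unique ht (tendsto_const_nhds.congr' ?_)
  filter_upwards [Filter.eventually_ge_atTop (Finset.range numCoeff)] with s hs
  exact (coeff_prod_eq_of_le (Finset.range_mono hn.le)).trans
    (coeff_prod_eq_of_le ((Finset.range_mono hn.le).trans hs)).symm

abbrev lEta : List ℤ := [1, -1, -1, 0, 0, 1, 0, 1, 0, 0, 0, 0, -1]
abbrev lE : List ℤ := [1, -24, 252, -1472, 4830, -6048, -16744, 84480, -113643, -115920, 534612, -370944, -577738]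
abbrev lE4 : List ℤ := [1, 240, 2160, 6720, 17520, 30240, 60480, 82560, 140400, 181680, 272160, 319680, 490560]
abbrev lA : List ℤ := [1, 720, 179280, 16954560, 396974160, 4632858720, 34413301440, 187477879680, 814940600400, 2975469665040, 9486467837280, 27053330840640, 70485969919680]
abbrev lD : List ℤ := [0, 1, -24, 252, -1472, 4830, -6048, -16744, 84480, -113643, -115920, 534612, -370944]
abbrev lD2 : List ℤ := [0, 0, 1, -48, 1080, -15040, 143820, -985824, 4857920, -16295040, 28412910, 38671600, -424520544]
abbrev lD3 : List ℤ := [0, 0, 0, 1, -72, 2484, -54528, 852426, -10055232, 92389176, -671302656, 3858182955, -17183392736]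
abbrev lD4 : List ℤ := [0, 0, 0, 0, 1, -96, 4464, -133760, 2897880, -48264768, 641207744, -6954435840, 62452035180]
abbrev lA2 : List ℤ := [1, 1440, 876960, 292072320, 57349833120, 6660135541440, 436536302762880, 15172132360815360, 327295477379498400, 4913576699608450080, 55439481453769056960, 496426192564963006080, 3672749219557161663360]
abbrev lA3 : List ℤ := [1, 2160, 2093040, 1198601280, 449674832880, 115759487504160, 20820305837344320, 2615906295148775040, 226583108277425622000, 13281719293822804323120, 525685748605926975275040, 14756014930478930420080320, 310144911308551097572415040]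

theorem startsWith_etaProd : StartsWith etaProd lEta := by
  intro n hn
  rw [coeff_etaProd hn, startsWith_prod numCoeff n hn]
  revert n
  decide +kernel

theorem startsWith_etaUnit : StartsWith dedekindEtaUnit lE := by
  have h1 := startsWith_etaProd
  have h2 := h1.mul h1 (show convList lEta lEta = [1, -2, -1, 2, 1, 2, -2, 0, -2, -2, 1, 0, 0] by decide +kernel)
  have h4 := h2.mul h2 (show _ = [1, -4, 2, 8, -5, -4, -10, 8, 9, 0, 14, -16, -10] by decide +kernel)
  have h8 := h4.mul h4 (show _ = [1, -8, 20, 0, -70, 64, 56, 0, -125, -160, 308, 0, 110] by decide +kernel)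
  have h16 := h8.mul h8 (show _ = [1, -16, 104, -320, 260, 1248, -3712, 1664, 6890, -7280, -5568, -4160, 33176] by decide +kernel)
  have h := h16.mul h8 (show _ = lE by decide +kernel)
  convert h using 1
  rw [dedekindEtaUnit]
  ring

theorem startsWith_psD : StartsWith Igusa.psD lD := by
  intro n hn
  rw [Igusa.psD]
  rcases n with _ | m
  · simp
  · rw [PowerSeries.coeff_succ_X_mul, startsWith_etaUnit m (by omega)]
    have hm : m < 12 := Nat.lt_of_succ_lt_succ hn
    clear hn
    revert m
    decide +kernel

theorem startsWith_eisenstein4 : StartsWith eisenstein4 lE4 := by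
  intro n hn
  rw [eisenstein4, PowerSeries.coeff_mk]
  revert n
  decide +kernel

theorem startsWith_psA : StartsWith Igusa.psA lA := by
  have h := (startsWith_eisenstein4.mul startsWith_eisenstein4 rfl).mul startsWith_eisenstein4
    (show _ = lA by decide +kernel)
  rwa [← pow_two, ← pow_succ] at h

theorem startsWith_psD_two : StartsWith (Igusa.psD ^ 2) lD2 := by
  have h := startsWith_psD.mul startsWith_psD (show _ = lD2 by decide +kernel)
  rwa [← pow_two] at h

theorem startsWith_psD_three : StartsWith (Igusa.psD ^ 3) lD3 := by
  have h := startsWith_psD_two.mul startsWith_psD (show _ = lD3 by decide +kernel)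
  rwa [← pow_succ] at h

theorem startsWith_psD_four : StartsWith (Igusa.psD ^ 4) lD4 := by
  have h := startsWith_psD_three.mul startsWith_psD (show _ = lD4 by decide +kernel)
  rwa [← pow_succ] at h

theorem startsWith_psA_two : StartsWith (Igusa.psA ^ 2) lA2 := by
  have h := startsWith_psA.mul startsWith_psA (show _ = lA2 by decide +kernel)
  rwa [← pow_two] at h

theorem startsWith_psA_three : StartsWith (Igusa.psA ^ 3) lA3 := by
  have h := startsWith_psA_two.mul startsWith_psA (show _ = lA3 by decide +kernel)
  rwa [← pow_succ] at h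

end FLTAgent.GoodRed.SmallPrime
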