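import Fermat.Agent.GoodRed.SmallPrime.EtaTrunc
import Fermat.Agent.Igusa.PrimeEquation

/-!
# Coordinates of levels two and three, with their relation to `j`

`hauptTwo = Δ (z) / Δ (2 z)` with `j x ^ 2 = (x + 256) ^ 3` and
`hauptThree = (η (z) / η (3 z)) ^ 12` with `j x ^ 3 = (x + 27) (x + 243) ^ 3`.
-/

set_option autoImplicit false
set_option linter.style.haveILetI false
set_option linter.unusedSectionVars false

noncomputable section

open HahnSeries ModularCurve Finset

namespace FLTAgent.GoodRed.SmallPrime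

open FLTAgent.Igusa
open FLTAgent.ModPoly (qExpand_ofPowerSeries)

/-- The level one combination with coefficient list `c`. -/
def formComb (b : ℕ) (c : List ℤ) : PowerSeries ℤ :=
  ∑ i ∈ range (b + 1), PowerSeries.C (c.getD i 0) * (psA ^ (b - i) * psD ^ i)

theorem heckePS_eq_formComb {p : ℕ} (hp : p.Prime) (b : ℕ) (c : List ℤ)
    (h : ∀ n ≤ b, PowerSeries.coeff n (heckePS p b (psD ^ b)) =
      PowerSeries.coeff n (formComb b c)) :
    heckePS p b (psD ^ b) = formComb b c := by
  obtain ⟨c', hc'⟩ := exists_heckePS_eq_sum hp 0 b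
  rw [zero_add, pow_zero, one_mul] at hc'
  have key : ∀ i, i ≤ b → c' i = c.getD i 0 := by
    intro i
    induction i using Nat.strong_induction_on with
    | _ i ih =>
      intro hi
      have he := h i hi
      rw [hc', formComb, map_sum, map_sum, ← sub_eq_zero, ← Finset.sum_sub_distrib,
        Finset.sum_eq_single i] at he
      · rw [PowerSeries.coeff_C_mul, PowerSeries.coeff_C_mul, (coeff_monomial_eq (b - i) i).1,
          mul_one, mul_one] at he
        exact sub_eq_zero.mp he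
      · intro k hk hne
        rcases lt_or_gt_of_ne hne with hlt | hgt
        · rw [ih k hlt (by omega), sub_self]
        · rw [PowerSeries.coeff_C_mul, PowerSeries.coeff_C_mul,
            (coeff_monomial_eq (b - k) k).2 i hgt, mul_zero, mul_zero, sub_zero]
      · intro hni
        exact absurd (Finset.mem_range.mpr (Nat.lt_succ_of_le hi)) hni
  rw [hc']
  exact Finset.sum_congr rfl fun i hi => by rw [key i (by have := Finset.mem_range.mp hi; omega)]

theorem StartsWith.coeff_heckePS {G : PowerSeries ℤ} {l : List ℤ} (h : StartsWith G l)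
    (p m n : ℕ) (hn : n * p < numCoeff) (hp : 0 < p) :
    PowerSeries.coeff n (heckePS p m G) =
      (p : ℤ) * l.getD (n * p) 0 + if p ∣ n then (p : ℤ) ^ (12 * m) * l.getD (n / p) 0 else 0 := by
  rw [heckePS, PowerSeries.coeff_mk, h _ hn]
  have : n / p < numCoeff :=
    lt_of_le_of_lt ((Nat.div_le_self n p).trans (Nat.le_mul_of_pos_right n hp)) hn
  rw [h _ this]

/-- The sum of the `b`-th powers of the conjugates. -/
theorem sum_rootW_pow {p : ℕ} [NeZero p] {b : ℕ} {c : List ℤ}
    (hc : heckePS p b (psD ^ b) = formComb b c) {ζ : ℂˣ} (hζ : IsPrimitiveRoot ζ p) :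
    ∑ o, rootW ℂ p ζ o ^ b = ∑ i ∈ range (b + 1),
      ((c.getD i 0 : ℤ) : LaurentSeries ℂ) * qExpand ℂ p (jqModC ℂ) ^ (b - i) := by
  have h := sum_twist_ofZ hζ b (psD ^ b)
  rw [hc] at h
  have hL : ∑ o, rootW ℂ p ζ o ^ b =
      (((p : LaurentSeries ℂ) ^ 12) ^ b * qExpand ℂ (p * p) (ofZ ℂ (psD ^ b))
        + ∑ i : Fin p, FLTAgent.ModPoly.twist (ζ ^ (i : ℕ)) (ofZ ℂ (psD ^ b)))
      * qExpand ℂ p (sDinv ℂ) ^ b := by
    rw [Fintype.sum_option, add_mul, Finset.sum_mul]
    congr 1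
    · simp only [rootW, map_pow]
      ring
    · refine Finset.sum_congr rfl fun i _ => ?_
      simp only [rootW, map_pow]
      ring
  rw [hL, h, formComb, map_sum, map_sum, Finset.sum_mul]
  refine Finset.sum_congr rfl fun i hi => ?_
  have hC : ofZ ℂ (PowerSeries.C (c.getD i 0)) = ((c.getD i 0 : ℤ) : LaurentSeries ℂ) := by
    rw [eq_intCast PowerSeries.C (c.getD i 0), map_intCast]
  have h1 : qExpand ℂ p (ofZ ℂ psD) * qExpand ℂ p (sDinv ℂ) = 1 := by
    rw [← map_mul, psD_mul_sDinv, map_one]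
  rw [map_mul (ofZ ℂ), map_mul (ofZ ℂ), map_mul (qExpand ℂ p), map_mul (qExpand ℂ p), hC,
    map_intCast, map_pow, map_pow, map_pow, map_pow, mul_assoc]
  congr 1
  have hi' : b = b - i + i := (Nat.sub_add_cancel (Nat.lt_succ_iff.mp (Finset.mem_range.mp hi))).symm
  conv_lhs => arg 2; rw [hi', _root_.pow_add]
  rw [mul_mul_mul_comm, ← mul_pow, ← mul_pow, h1, one_pow, mul_one, ← map_mul, psA_mul_sDinv]

/-- `p ^ 12 Δ (p z) / Δ (z)` as an integral series. -/
def quotW (p : ℕ) [NeZero p] : LaurentSeries ℤ :=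
  (p : LaurentSeries ℤ) ^ 12 * qExpand ℤ p (ofZ ℤ psD) * sDinv ℤ

theorem rootW_none (p : ℕ) [NeZero p] (ζ : ℂˣ) :
    rootW ℂ p ζ none = qExpand ℂ p (coeffMap (Int.castRingHom ℂ) (quotW p)) := by
  simp only [quotW, map_mul, map_pow, map_natCast, coeffMap_qExpand, coeffMap_ofZ,
    coeffMap_sDinv, qExpand_qExpand, rootW]

theorem eq_of_qExpand_complex {p : ℕ} [NeZero p] {x y : LaurentSeries ℤ}
    (h : qExpand ℂ p (coeffMap (Int.castRingHom ℂ) x) =
      qExpand ℂ p (coeffMap (Int.castRingHom ℂ) y)) : x = y :=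
  HahnSeries.ext (funext fun k => (Int.castRingHom ℂ).injective_int
    (congr_arg (fun z : LaurentSeries ℂ => z.coeff k) (qExpand_injective p h)))

/-- The equation of `2 ^ 12 Δ (2 z) / Δ (z)` over `j`. -/
theorem quotW_two_equation : (quotW 2 + 16) ^ 3 = jqModC ℤ * quotW 2 := by
  have hp : Nat.Prime 2 := Nat.prime_two
  have hζ := isPrimitiveRoot_zetaInt_complex 2
  set ζ := Units.map ((algebraMap AlgInt ℂ : AlgInt →+* ℂ) : AlgInt →* ℂ) (zetaInt 2)
  have hD1 : StartsWith (psD ^ 1) lD := by rw [pow_one]; exact startsWith_psD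
  have c1 : heckePS 2 1 (psD ^ 1) = formComb 1 [0, -48] := by
    refine heckePS_eq_formComb hp 1 _ fun n hn => ?_
    rw [hD1.coeff_heckePS 2 1 n (by show _ < 13; omega) two_pos, formComb]
    simp only [Finset.sum_range_succ, Finset.sum_range_zero, map_add, PowerSeries.coeff_C_mul]
    norm_num
    rw [startsWith_psD n (by show _ < 13; omega)]
    interval_cases n <;> decide +kernel
  have c2 : heckePS 2 2 (psD ^ 2) = formComb 2 [0, 2, 768] := by
    refine heckePS_eq_formComb hp 2 _ fun n hn => ?_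
    rw [startsWith_psD_two.coeff_heckePS 2 2 n (by show _ < 13; omega) two_pos, formComb]
    have h01 : StartsWith (psA * psD) (convList lA lD) := startsWith_psA.mul startsWith_psD rfl
    simp only [Finset.sum_range_succ, Finset.sum_range_zero, map_add, PowerSeries.coeff_C_mul]
    norm_num
    rw [h01 n (by show _ < 13; omega), startsWith_psD_two n (by show _ < 13; omega)]
    interval_cases n <;> decide +kernel
  have c3 : heckePS 2 3 (psD ^ 3) = formComb 3 [0, 0, -144, -12288] := by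
    refine heckePS_eq_formComb hp 3 _ fun n hn => ?_
    rw [startsWith_psD_three.coeff_heckePS 2 3 n (by show _ < 13; omega) two_pos, formComb]
    have h12 : StartsWith (psA * psD ^ 2) (convList lA lD2) :=
      startsWith_psA.mul startsWith_psD_two rfl
    simp only [Finset.sum_range_succ, Finset.sum_range_zero, map_add, PowerSeries.coeff_C_mul]
    norm_num
    rw [h12 n (by show _ < 13; omega), startsWith_psD_three n (by show _ < 13; omega)]
    interval_cases n <;> decide +kernel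
  have e1 := sum_rootW_pow c1 hζ
  have e2 := sum_rootW_pow c2 hζ
  have e3 := sum_rootW_pow c3 hζ
  simp only [Fintype.sum_option, Fin.sum_univ_two, Finset.sum_range_succ, Finset.sum_range_zero]
    at e1 e2 e3
  norm_num at e1 e2 e3
  set J := qExpand ℂ 2 (jqModC ℂ)
  set a := rootW ℂ 2 ζ none with ha
  set u := rootW ℂ 2 ζ (some 0)
  set v := rootW ℂ 2 ζ (some 1)
  have key : (a + 16) ^ 3 = J * a := by
    have h6 : (6 : LaurentSeries ℂ) ≠ 0 := by exact_mod_cast natCast_ne_zero_laurent (R := ℂ) (n := 6) (by norm_num)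
    refine mul_left_cancel₀ h6 ?_
    linear_combination (6 * a ^ 2 - 3 * a * (a + u + v - 48) + (a + u + v) ^ 2 - 48 * (a + u + v)
      + 2304 - 3 * (2 * J + 768)) * e1 + (3 * a - 3 * (a + u + v)) * e2 + 2 * e3
  apply eq_of_qExpand_complex (p := 2)
  simp only [map_pow, map_add, map_mul, map_ofNat, coeffMap_jqModC, ← rootW_none 2 ζ]
  exact key

/-- The equation of `3 ^ 12 Δ (3 z) / Δ (z)` over `j`. -/
theorem quotW_three_equation :
    quotW 3 ^ 4 - 756 * quotW 3 ^ 3 + (19926 + 72 * jqModC ℤ) * quotW 3 ^ 2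
      - ((756 - jqModC ℤ) ^ 2 - 393660) * quotW 3 + 531441 = 0 := by
  have hp : Nat.Prime 3 := Nat.prime_three
  have hζ := isPrimitiveRoot_zetaInt_complex 3
  set ζ := Units.map ((algebraMap AlgInt ℂ : AlgInt →+* ℂ) : AlgInt →* ℂ) (zetaInt 3)
  have hD1 : StartsWith (psD ^ 1) lD := by rw [pow_one]; exact startsWith_psD
  have h01 : StartsWith (psA * psD) (convList lA lD) := startsWith_psA.mul startsWith_psD rfl
  have h02 : StartsWith (psA ^ 2 * psD) (convList lA2 lD) :=
    startsWith_psA_two.mul startsWith_psD rfl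
  have h03 : StartsWith (psA ^ 3 * psD) (convList lA3 lD) :=
    startsWith_psA_three.mul startsWith_psD rfl
  have h12 : StartsWith (psA * psD ^ 2) (convList lA lD2) :=
    startsWith_psA.mul startsWith_psD_two rfl
  have h22 : StartsWith (psA ^ 2 * psD ^ 2) (convList lA2 lD2) :=
    startsWith_psA_two.mul startsWith_psD_two rfl
  have h13 : StartsWith (psA * psD ^ 3) (convList lA lD3) :=
    startsWith_psA.mul startsWith_psD_three rfl
  have c1 : heckePS 3 1 (psD ^ 1) = formComb 1 [0, 756] := by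
    refine heckePS_eq_formComb hp 1 _ fun n hn => ?_
    rw [hD1.coeff_heckePS 3 1 n (by show _ < 13; omega) three_pos, formComb]
    simp only [Finset.sum_range_succ, Finset.sum_range_zero, map_add, PowerSeries.coeff_C_mul]
    norm_num
    rw [startsWith_psD n (by show _ < 13; omega)]
    interval_cases n <;> decide +kernel
  have c2 : heckePS 3 2 (psD ^ 2) = formComb 2 [0, -144, 531684] := by
    refine heckePS_eq_formComb hp 2 _ fun n hn => ?_
    rw [startsWith_psD_two.coeff_heckePS 3 2 n (by show _ < 13; omega) three_pos, formComb]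
    simp only [Finset.sum_range_succ, Finset.sum_range_zero, map_add, PowerSeries.coeff_C_mul]
    norm_num
    rw [h01 n (by show _ < 13; omega), startsWith_psD_two n (by show _ < 13; omega)]
    interval_cases n <;> decide +kernel
  have c3 : heckePS 3 3 (psD ^ 3) = formComb 3 [0, 3, -167832, 387422676] := by
    refine heckePS_eq_formComb hp 3 _ fun n hn => ?_
    rw [startsWith_psD_three.coeff_heckePS 3 3 n (by show _ < 13; omega) three_pos, formComb]
    simp only [Finset.sum_range_succ, Finset.sum_range_zero, map_add, PowerSeries.coeff_C_mul]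
    norm_num
    rw [h02 n (by show _ < 13; omega), h12 n (by show _ < 13; omega), startsWith_psD_three n (by show _ < 13; omega)]
    interval_cases n <;> decide +kernel
  have c4 : heckePS 3 4 (psD ^ 4) =
      formComb 4 [0, 0, 13392, -163435968, 282429556164] := by
    refine heckePS_eq_formComb hp 4 _ fun n hn => ?_
    rw [startsWith_psD_four.coeff_heckePS 3 4 n (by show _ < 13; omega) three_pos, formComb]
    simp only [Finset.sum_range_succ, Finset.sum_range_zero, map_add, PowerSeries.coeff_C_mul]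
    norm_num
    rw [h22 n (by show _ < 13; omega), h13 n (by show _ < 13; omega), startsWith_psD_four n (by show _ < 13; omega)]
    interval_cases n <;> decide +kernel
  have e1 := sum_rootW_pow c1 hζ
  have e2 := sum_rootW_pow c2 hζ
  have e3 := sum_rootW_pow c3 hζ
  have e4 := sum_rootW_pow c4 hζ
  simp only [Fintype.sum_option, Fin.sum_univ_three, Finset.sum_range_succ, Finset.sum_range_zero]
    at e1 e2 e3 e4
  norm_num at e1 e2 e3 e4
  set J := qExpand ℂ 3 (jqModC ℂ)
  set a := rootW ℂ 3 ζ none with ha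
  set u := rootW ℂ 3 ζ (some 0)
  set v := rootW ℂ 3 ζ (some 1)
  set w := rootW ℂ 3 ζ (some 2)
  set P1 := a + (u + v + w) with hP1
  have key : a ^ 4 - 756 * a ^ 3 + (19926 + 72 * J) * a ^ 2
      - ((756 - J) ^ 2 - 393660) * a + 531441 = 0 := by
    have h24 : (24 : LaurentSeries ℂ) ≠ 0 := by exact_mod_cast natCast_ne_zero_laurent (R := ℂ) (n := 24) (by norm_num)
    refine mul_left_cancel₀ h24 ?_
    have newton : 24 * a ^ 4 - 24 * P1 * a ^ 3
        + 12 * (P1 ^ 2 - (a ^ 2 + (u ^ 2 + v ^ 2 + w ^ 2))) * a ^ 2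
        - 4 * (P1 ^ 3 - 3 * P1 * (a ^ 2 + (u ^ 2 + v ^ 2 + w ^ 2))
            + 2 * (a ^ 3 + (u ^ 3 + v ^ 3 + w ^ 3))) * a
        + (P1 ^ 4 - 6 * P1 ^ 2 * (a ^ 2 + (u ^ 2 + v ^ 2 + w ^ 2))
            + 3 * (a ^ 2 + (u ^ 2 + v ^ 2 + w ^ 2)) ^ 2
            + 8 * P1 * (a ^ 3 + (u ^ 3 + v ^ 3 + w ^ 3))
            - 6 * (a ^ 4 + (u ^ 4 + v ^ 4 + w ^ 4))) = 0 := by
      simp only [hP1]; ring
    rw [e1, e2, e3, e4] at newton
    linear_combination newton
  apply eq_of_qExpand_complex (p := 3)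
  simp only [map_pow, map_add, map_sub, map_mul, map_ofNat, map_zero, coeffMap_jqModC,
    ← rootW_none 3 ζ]
  exact key

theorem natCast_laurentInt_ne_zero {n : ℕ} (h : n ≠ 0) : (n : LaurentSeries ℤ) ≠ 0 :=
  natCast_ne_zero_laurent (R := ℤ) (Int.natCast_ne_zero.mpr h)

/-- `Δ (z) / Δ (2 z)`. -/
def hauptTwo : LaurentSeries ℤ := ofZ ℤ psD * qExpand ℤ 2 (sDinv ℤ)

theorem hauptTwo_mul_quotW : hauptTwo * quotW 2 = 4096 := by
  have h1 : qExpand ℤ 2 (ofZ ℤ psD) * qExpand ℤ 2 (sDinv ℤ) = 1 := by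
    rw [← map_mul, psD_mul_sDinv, map_one]
  rw [hauptTwo, quotW]
  linear_combination (4096 * (ofZ ℤ psD * sDinv ℤ)) * h1 + 4096 * psD_mul_sDinv ℤ

/-- `j x ^ 2 = (x + 256) ^ 3`. -/
theorem hauptTwo_equation : jqModC ℤ * hauptTwo ^ 2 = (hauptTwo + 256) ^ 3 := by
  have h := quotW_two_equation
  have hx := hauptTwo_mul_quotW
  set x := hauptTwo
  set w := quotW 2
  have hne : (4096 : LaurentSeries ℤ) ≠ 0 := by
    exact_mod_cast natCast_laurentInt_ne_zero (n := 4096) (by norm_num)
  refine mul_left_cancel₀ hne ?_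
  linear_combination (-x ^ 3) * h +
    ((x * w) ^ 2 + 4096 * (x * w) + 16777216 + 48 * x * (x * w + 4096) + 768 * x ^ 2
      - jqModC ℤ * x ^ 2) * hx

/-- A half of `dedekindEtaUnitInv`. -/
def halfInv : PowerSeries ℤ := etaProd ^ 12 * dedekindEtaUnitInv

theorem etaProd_pow_mul_halfInv : etaProd ^ 12 * halfInv = 1 := by
  rw [halfInv, ← mul_assoc, ← _root_.pow_add, ← dedekindEtaUnit_mul_inv]
  rfl

theorem halfInv_sq : halfInv ^ 2 = dedekindEtaUnitInv := by
  have h := dedekindEtaUnit_mul_inv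
  rw [dedekindEtaUnit] at h
  rw [halfInv]
  linear_combination dedekindEtaUnitInv * h

/-- `(η (z) / η (3 z)) ^ 12`. -/
def hauptThree : LaurentSeries ℤ :=
  single (-1) 1 * ofZ ℤ (etaProd ^ 12) * qExpand ℤ 3 (ofZ ℤ halfInv)

/-- `729 (η (3 z) / η (z)) ^ 12`. -/
def quotThree : LaurentSeries ℤ :=
  729 * single 1 1 * qExpand ℤ 3 (ofZ ℤ (etaProd ^ 12)) * ofZ ℤ halfInv

theorem hauptThree_mul_quotThree : hauptThree * quotThree = 729 := by
  have h1 : ofZ ℤ (etaProd ^ 12) * ofZ ℤ halfInv = 1 := by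
    rw [← map_mul, etaProd_pow_mul_halfInv, map_one]
  have h2 : qExpand ℤ 3 (ofZ ℤ (etaProd ^ 12)) * qExpand ℤ 3 (ofZ ℤ halfInv) = 1 := by
    rw [← map_mul, h1, map_one]
  have h3 : single (-1 : ℤ) (1 : ℤ) * single (1 : ℤ) (1 : ℤ) = 1 := by
    simp [single_mul_single]
  rw [hauptThree, quotThree]
  linear_combination (729 * (ofZ ℤ (etaProd ^ 12) * ofZ ℤ halfInv)
      * (qExpand ℤ 3 (ofZ ℤ (etaProd ^ 12)) * qExpand ℤ 3 (ofZ ℤ halfInv))) * h3
    + (729 * (ofZ ℤ (etaProd ^ 12) * ofZ ℤ halfInv)) * h2 + 729 * h1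

theorem quotThree_sq : quotThree ^ 2 = quotW 3 := by
  have hD : qExpand ℤ 3 (ofZ ℤ psD) =
      single 3 1 * qExpand ℤ 3 (ofZ ℤ (etaProd ^ 12)) ^ 2 := by
    rw [ofZ_psD, map_mul, qExpand_single, mul_one, ← map_pow, ← map_pow, ← pow_mul]
    rfl
  have hI : sDinv ℤ = single (-1) 1 * ofZ ℤ halfInv ^ 2 := by
    rw [sDinv, ← halfInv_sq, map_pow]
  have h3 : single (1 : ℤ) (1 : ℤ) ^ 2 = single (3 : ℤ) (1 : ℤ) * single (-1 : ℤ) (1 : ℤ) := by
    simp [single_mul_single, HahnSeries.single_pow]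
  rw [quotW, hD, hI, quotThree]
  linear_combination (729 ^ 2 * qExpand ℤ 3 (ofZ ℤ (etaProd ^ 12)) ^ 2 * ofZ ℤ halfInv ^ 2) * h3

/-- The other factor of the equation does not vanish. -/
theorem conjFactor_ne_zero :
    (27 - quotThree) * (3 - quotThree) ^ 3 + jqModC ℤ * quotThree ≠ 0 := by
  set v : PowerSeries ℤ :=
    PowerSeries.expand 3 (NeZero.ne 3) (etaProd ^ 12) * halfInv with hv
  have hy : quotThree = ofZ ℤ (729 * PowerSeries.X * v) := by
    rw [quotThree, hv, map_mul, map_mul, map_mul, map_ofNat (ofZ ℤ) 729]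
    simp [ofZ, qExpand_ofPowerSeries, mul_assoc]
  have hj : jqModC ℤ * quotThree = ofZ ℤ (729 * jNum * v) := by
    have hjq : jqModC ℤ = single (-1 : ℤ) (1 : ℤ) * ofZ ℤ jNum := rfl
    have hX : ofZ ℤ PowerSeries.X = single (1 : ℤ) (1 : ℤ) := by simp [ofZ]
    have h3 : single (-1 : ℤ) (1 : ℤ) * single (1 : ℤ) (1 : ℤ) = 1 := by simp [single_mul_single]
    have alg : ∀ a b c d : LaurentSeries ℤ, a * b = 1 → a * c * (729 * b * d) = 729 * c * d :=
      fun a b c d h => by linear_combination (729 * c * d) * h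
    rw [hy, hjq, map_mul (ofZ ℤ) (729 * PowerSeries.X) v, map_mul (ofZ ℤ) 729 PowerSeries.X,
      map_mul (ofZ ℤ) (729 * jNum) v, map_mul (ofZ ℤ) 729 jNum, map_ofNat (ofZ ℤ) 729, hX]
    exact alg _ _ _ _ h3
  have hv0 : PowerSeries.constantCoeff v = 1 := by
    rw [hv, halfInv, map_mul, map_mul, PowerSeries.constantCoeff_expand, map_pow,
      constantCoeff_etaProd, constantCoeff_dedekindEtaUnitInv]
    norm_num
  rw [hj, hy, show (27 : LaurentSeries ℤ) = ofZ ℤ 27 from (map_ofNat (ofZ ℤ) 27).symm,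
    show (3 : LaurentSeries ℤ) = ofZ ℤ 3 from (map_ofNat (ofZ ℤ) 3).symm, ← map_sub, ← map_sub,
    ← map_pow, ← map_mul, ← map_add]
  intro h
  have h0 := congr_arg (fun z : LaurentSeries ℤ => z.coeff ((0 : ℕ) : ℤ)) h
  simp only [ofZ, RingHom.comp_apply, HahnSeries.ofPowerSeries_apply_coeff,
    PowerSeries.coeff_map, PowerSeries.coeff_zero_eq_constantCoeff, HahnSeries.coeff_zero] at h0
  simp [hv0, map_ofNat] at h0

theorem quotThree_equation :
    (quotThree + 27) * (quotThree + 3) ^ 3 = jqModC ℤ * quotThree := by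
  have h := quotW_three_equation
  rw [← quotThree_sq] at h
  have hprod : ((quotThree + 27) * (quotThree + 3) ^ 3 - jqModC ℤ * quotThree) *
      ((27 - quotThree) * (3 - quotThree) ^ 3 + jqModC ℤ * quotThree) = 0 := by
    linear_combination h
  exact sub_eq_zero.mp ((mul_eq_zero.mp hprod).resolve_right conjFactor_ne_zero)

/-- `j x ^ 3 = (x + 27) (x + 243) ^ 3`. -/
theorem hauptThree_equation :
    jqModC ℤ * hauptThree ^ 3 = (hauptThree + 27) * (hauptThree + 243) ^ 3 := by
  have h := quotThree_equation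
  have hx := hauptThree_mul_quotThree
  set x := hauptThree
  set y := quotThree
  have hne : (729 : LaurentSeries ℤ) ≠ 0 := by
    exact_mod_cast natCast_laurentInt_ne_zero (n := 729) (by norm_num)
  refine mul_left_cancel₀ hne ?_
  linear_combination (-x ^ 4) * h +
    ((x * y) ^ 3 + 729 * (x * y) ^ 2 + 531441 * (x * y) + 387420489
      + 36 * x * ((x * y) ^ 2 + 729 * (x * y) + 531441)
      + 270 * x ^ 2 * (x * y + 729) + 756 * x ^ 3 - jqModC ℤ * x ^ 3) * hx

end FLTAgent.GoodRed.SmallPrime
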